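import Fermat.Agent.A2.Top.H672.WallS3
import Fermat.Agent.A2.Mod.H372.S3Final

/-!
# WALL A2, CLOSED (helper672, assembly only)

`target` : for every prime `q` with `q ‖ N` and every `m > 0` prime to `q`, every element `τ` of an
inertia group at `q` satisfies `(τ - 1)² = 0` on `J₀(N)[m]` (`Fermat.Agent.A2.Target N q m`,
`Fermat/Agent/A2/Spec.lean`), UNCONDITIONALLY.

Assembly: `wall_of_s3` (`WallS3.lean`) with S3 = `Mod.H372.s3`.  Pieces (all on main):
ALG route S (`Alg/H34`, `Alg/H754`, `Alg/H609`; no `SepCoord`), IF (`IF/H429`), D2 (`H876`),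
T0/T1 (`T0/H669`, `T1/H669`), MOD leaves L1–L14, S1 (`Mod/H13`), S2 (`Mod/H994`), S3
(`Mod/H372`), Sτ (`Mod/H751`), GOODRED (`Mod/H216`, `Mod/H189`).
-/

set_option autoImplicit false

namespace Fermat.Agent.A2.Top.H672

open Fermat.Agent.A2

/-- **The Kummer form of the wall A2**, unconditional. -/
theorem kummerTarget (N q m : ℕ) (hq : q.Prime) (hqN : q ∣ N) (hq2 : ¬ q ^ 2 ∣ N) (hN : N ≠ 0)
    (hm : 0 < m) (hqm : ¬ q ∣ m) : KummerTarget N q m :=
  kummerTarget_of_s3 (fun P E M q _ _ w => Mod.H372.s3 P E M q w) N q m hq hqN hq2 hN hm hqm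

/-- **The wall A2**, unconditional: unipotent inertia on `J₀(N)[m]` at every `q ‖ N`, `q ∤ m`. -/
theorem target (N q m : ℕ) (hq : q.Prime) (hqN : q ∣ N) (hq2 : ¬ q ^ 2 ∣ N) (hN : N ≠ 0)
    (hm : 0 < m) (hqm : ¬ q ∣ m) : Target N q m :=
  wall_of_s3 (fun P E M q _ _ w => Mod.H372.s3 P E M q w) N q m hq hqN hq2 hN hm hqm

end Fermat.Agent.A2.Top.H672
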