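import Fermat.Agent.A2.Top.H672.WallNoSep
import Fermat.Agent.A2.Mod.H994.S2
import Fermat.Agent.A2.Mod.H378.L11
import Fermat.Agent.A2.Mod.H216.GoodRedAll

/-!
# WALL A2 from S3 alone (helper672)

`wall_of_s3` : `S3Statement` (ordinary double points, all `P E M q w`) ⟹ `Target N q m` for every
`q ‖ N`, `q ∤ m`.  Everything else is plugged in from main: ALG route S (`WallNoSep.algS`, no
`SepCoord`, so S4 is not needed), IF (`IF.H429`), D2 (`H876`), T0/T1 (`H669`), L1–L11, S1 (`H13`),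
S2 (`Mod.H994.s2_of_resInf` + `Mod.H378.resInf`), Sτ (`H751`), GOODRED (`Top.H216`).
-/

set_option autoImplicit false
set_option linter.unusedSectionVars false
set_option synthInstance.maxHeartbeats 400000
set_option maxHeartbeats 1600000

namespace Fermat.Agent.A2.Top.H672

open Fermat.Agent.A2

/-- **The Kummer form of the wall A2 from S3 alone.** -/
theorem kummerTarget_of_s3
    (hS3 : ∀ (P : ValuationSubring Qb) (E : IntermediateField ℚ Qb) (M q : ℕ) [NeZero M]
      [NeZero q] (w : RE P E), Mod.S3Statement P E M q w)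
    (N q m : ℕ) (hq : q.Prime) (hqN : q ∣ N) (hq2 : ¬ q ^ 2 ∣ N) (hN : N ≠ 0) (hm : 0 < m)
    (hqm : ¬ q ∣ m) : KummerTarget N q m :=
  kummerTarget_noSep
    (fun P E M q _ _ w => Mod.H994.s2_of_resInf P E M q w (Mod.H378.resInf P E M q w))
    hS3 Top.H216.goodRedStatement N q m hq hqN hq2 hN hm hqm

/-- **The wall A2 from S3 alone.** -/
theorem wall_of_s3
    (hS3 : ∀ (P : ValuationSubring Qb) (E : IntermediateField ℚ Qb) (M q : ℕ) [NeZero M]
      [NeZero q] (w : RE P E), Mod.S3Statement P E M q w)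
    (N q m : ℕ) (hq : q.Prime) (hqN : q ∣ N) (hq2 : ¬ q ^ 2 ∣ N) (hN : N ≠ 0) (hm : 0 < m)
    (hqm : ¬ q ∣ m) : Target N q m :=
  wallNoSep
    (fun P E M q _ _ w => Mod.H994.s2_of_resInf P E M q w (Mod.H378.resInf P E M q w))
    hS3 Top.H216.goodRedStatement N q m hq hqN hq2 hN hm hqm

end Fermat.Agent.A2.Top.H672
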